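/-
S18lib / Asm / RankOne  (helper5)

`rankOne_of_liesOverPrime` : a valuation subring `A` of `ℚ̄` lying over a prime `ℓ` has rank one, in
the elementary form needed by the Čech package: for `c` in the maximal ideal and `d ≠ 0`, some power
of `c` does not divide `d`.
-/
import Mathlib
import Fermat.Prelude.Def_FLTPrelim_Ramification

set_option autoImplicit false

open Polynomial

namespace Fermat.Agent.S18lib

namespace RankOneAux

/-- A nonzero root of a nonzero integer polynomial is a root of one with nonzero constant term. -/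
theorem exists_coeff_zero_ne_zero {S : Type*} [CommRing S] [IsDomain S] {d : S} (hd : d ≠ 0) :
    ∀ (n : ℕ) (p : ℤ[X]), p.natDegree ≤ n → p ≠ 0 → aeval d p = 0 →
      ∃ q : ℤ[X], q.coeff 0 ≠ 0 ∧ aeval d q = 0 := by
  intro n
  induction n with
  | zero =>
    intro p hdeg hp h0
    refine ⟨p, ?_, h0⟩
    intro hc
    apply hp
    rw [Polynomial.eq_C_of_natDegree_le_zero hdeg, hc, map_zero]
  | succ n ih =>
    intro p hdeg hp h0
    by_cases hc : p.coeff 0 = 0
    · have hpX : p = p.divX * X := by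
        have := Polynomial.divX_mul_X_add p
        rw [hc, map_zero, add_zero] at this
        exact this.symm
      have hdivne : p.divX ≠ 0 := by
        intro h
        apply hp
        rw [hpX, h, zero_mul]
      have hroot : aeval d p.divX = 0 := by
        have h1 : aeval d p = aeval d p.divX * d := by
          conv_lhs => rw [hpX]
          rw [map_mul, aeval_X]
        rw [h1] at h0
        exact (mul_eq_zero.mp h0).resolve_right hd
      have hdeg' : p.divX.natDegree ≤ n := by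
        rw [Polynomial.natDegree_divX_eq_natDegree_tsub_one]
        omega
      exact ih p.divX hdeg' hdivne hroot
    · exact ⟨p, hc, h0⟩

/-- An integer prime to `ℓ` is a unit in a local ring in which `ℓ` is a non-unit. -/
theorem isUnit_intCast_of_not_dvd {A : Type*} [CommRing A] [IsLocalRing A] {ℓ : ℕ}
    (hℓ : ℓ.Prime) (hℓA : (ℓ : A) ∈ IsLocalRing.maximalIdeal A) {b : ℤ} (hb : ¬ (ℓ : ℤ) ∣ b) :
    IsUnit (b : A) := by
  have hcop : IsCoprime (ℓ : ℤ) b :=
    (Nat.prime_iff_prime_int.mp hℓ).coprime_iff_not_dvd.mpr hb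
  obtain ⟨x, y, hxy⟩ := hcop
  have h1 : (x : A) * (ℓ : A) + (y : A) * (b : A) = 1 := by
    have := congrArg (fun z : ℤ => (z : A)) hxy
    simpa using this
  have hmem : (x : A) * (ℓ : A) ∈ IsLocalRing.maximalIdeal A :=
    Ideal.mul_mem_left _ _ hℓA
  have hu : IsUnit ((y : A) * (b : A)) := by
    have : (y : A) * (b : A) = 1 - (x : A) * (ℓ : A) := by rw [← h1]; ring
    rw [this]
    by_contra hnu
    have h2 : (1 - (x : A) * (ℓ : A)) ∈ IsLocalRing.maximalIdeal A :=
      (IsLocalRing.mem_maximalIdeal _).mpr hnu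
    have h3 : (1 : A) ∈ IsLocalRing.maximalIdeal A := by
      have := Ideal.add_mem _ h2 hmem
      simp at this
    exact (IsLocalRing.maximalIdeal.isMaximal A).ne_top ((Ideal.eq_top_iff_one _).mpr h3)
  exact isUnit_of_mul_isUnit_right hu

/-- Key induction: if `ℓ ∣ c ^ m * p(c)` for an integer polynomial `p` with a coefficient prime
to `ℓ`, and `c` is a non-unit, then `ℓ` divides a power of `c`. -/
theorem exists_dvd_pow_of_dvd_aeval {A : Type*} [CommRing A] [IsLocalRing A] {ℓ : ℕ}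
    (hℓ : ℓ.Prime) (hℓA : (ℓ : A) ∈ IsLocalRing.maximalIdeal A) {c : A}
    (hc : c ∈ IsLocalRing.maximalIdeal A) :
    ∀ (n : ℕ) (p : ℤ[X]) (m : ℕ), p.natDegree ≤ n → (∃ i, ¬ (ℓ : ℤ) ∣ p.coeff i) →
      (ℓ : A) ∣ c ^ m * aeval c p → ∃ M : ℕ, (ℓ : A) ∣ c ^ M := by
  intro n
  induction n with
  | zero =>
    intro p m hdeg ⟨i, hi⟩ hdvd
    have hpC := Polynomial.eq_C_of_natDegree_le_zero hdeg
    have hi0 : i = 0 := by
      by_contra hne
      apply hi
      rw [hpC, Polynomial.coeff_C, if_neg hne]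
      exact dvd_zero _
    subst hi0
    have hu := isUnit_intCast_of_not_dvd hℓ hℓA hi
    refine ⟨m, ?_⟩
    rw [hpC, aeval_C] at hdvd
    have : algebraMap ℤ A (p.coeff 0) = ((p.coeff 0 : ℤ) : A) := by simp
    rw [this] at hdvd
    exact (hu.dvd_mul_right).mp hdvd
  | succ n ih =>
    intro p m hdeg ⟨i, hi⟩ hdvd
    have hsplit : aeval c p = aeval c p.divX * c + ((p.coeff 0 : ℤ) : A) := by
      conv_lhs => rw [← Polynomial.divX_mul_X_add p]
      rw [map_add, map_mul, aeval_X, aeval_C]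
      simp
    by_cases h0 : (ℓ : ℤ) ∣ p.coeff 0
    · -- constant term divisible by ℓ: pass to divX with m + 1
      have hi' : ∃ i', ¬ (ℓ : ℤ) ∣ p.divX.coeff i' := by
        rcases Nat.eq_zero_or_pos i with rfl | hpos
        · exact absurd h0 hi
        · refine ⟨i - 1, ?_⟩
          rw [Polynomial.coeff_divX, Nat.sub_add_cancel hpos]
          exact hi
      have hdeg' : p.divX.natDegree ≤ n := by
        rw [Polynomial.natDegree_divX_eq_natDegree_tsub_one]
        omega
      have hdvd' : (ℓ : A) ∣ c ^ (m + 1) * aeval c p.divX := by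
        obtain ⟨t, ht⟩ := h0
        have hcoeff : ((p.coeff 0 : ℤ) : A) = (ℓ : A) * (t : A) := by
          rw [ht]; push_cast; ring
        have : c ^ (m + 1) * aeval c p.divX
            = c ^ m * aeval c p - (ℓ : A) * ((t : A) * c ^ m) := by
          rw [hsplit, hcoeff]; ring
        rw [this]
        exact dvd_sub hdvd (Dvd.intro _ rfl)
      exact ih p.divX (m + 1) hdeg' hi' hdvd'
    · -- constant term prime to ℓ: `p(c)` is a unit
      have hu := isUnit_intCast_of_not_dvd hℓ hℓA h0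
      have hunit : IsUnit (aeval c p) := by
        rw [hsplit]
        by_contra hnu
        have h2 : aeval c p.divX * c + ((p.coeff 0 : ℤ) : A) ∈ IsLocalRing.maximalIdeal A :=
          (IsLocalRing.mem_maximalIdeal _).mpr hnu
        have h3 : aeval c p.divX * c ∈ IsLocalRing.maximalIdeal A := Ideal.mul_mem_left _ _ hc
        have h4 : ((p.coeff 0 : ℤ) : A) ∈ IsLocalRing.maximalIdeal A := by
          have := Ideal.sub_mem _ h2 h3
          simpa using this
        exact (IsLocalRing.mem_maximalIdeal _).mp h4 hu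
      exact ⟨m, (hunit.dvd_mul_right).mp hdvd⟩

end RankOneAux

open RankOneAux in
/-- `A` has rank one (needed by (C): powers of a non-unit eventually beat any fixed nonzero
element). -/
theorem rankOne_of_liesOverPrime {ℓ : ℕ} [Fact ℓ.Prime]
    (A : ValuationSubring (AlgebraicClosure ℚ)) (hA : A.LiesOverPrime ℓ) :
    ∀ c : A, c ∈ IsLocalRing.maximalIdeal A → ∀ d : A, d ≠ 0 → ∃ n : ℕ, ¬ c ^ n ∣ d := by
  have hℓ : ℓ.Prime := Fact.out
  -- `ℓ` is in the maximal ideal of `A`
  have hℓmem : ((ℓ : ℕ) : AlgebraicClosure ℚ) ∈ A := A.nonunits_le hA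
  have hℓA : ((ℓ : ℕ) : A) ∈ IsLocalRing.maximalIdeal A := by
    rw [IsLocalRing.mem_maximalIdeal, mem_nonunits_iff]
    intro hu
    have hcoe : (((ℓ : ℕ) : A) : AlgebraicClosure ℚ) = ((ℓ : ℕ) : AlgebraicClosure ℚ) := by simp
    have h1 : ((ℓ : ℕ) : AlgebraicClosure ℚ) ∈ A.nonunits := hA
    rw [ValuationSubring.mem_nonunits_iff_exists_mem_maximalIdeal] at h1
    obtain ⟨hm, hm'⟩ := h1
    have hm'' := (IsLocalRing.mem_maximalIdeal _).mp hm'
    apply hm''
    have : (⟨((ℓ : ℕ) : AlgebraicClosure ℚ), hm⟩ : A) = ((ℓ : ℕ) : A) := by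
      ext; simp
    rw [this]
    exact hu
  have hℓne : ((ℓ : ℕ) : A) ≠ 0 := by
    intro h
    have := congrArg (fun x : A => (x : AlgebraicClosure ℚ)) h
    have h2 : ((ℓ : ℕ) : AlgebraicClosure ℚ) = 0 := by simpa using this
    exact hℓ.ne_zero (by exact_mod_cast h2)
  -- every element of `A` is algebraic over `ℤ`
  have halg : ∀ x : A, ∃ p : ℤ[X], p ≠ 0 ∧ aeval x p = 0 := by
    intro x
    have h1 : IsAlgebraic ℚ (x : AlgebraicClosure ℚ) :=
      (AlgebraicClosure.isAlgebraic ℚ).isAlgebraic _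
    have h2 : IsAlgebraic ℤ (x : AlgebraicClosure ℚ) :=
      (IsFractionRing.isAlgebraic_iff ℤ ℚ (AlgebraicClosure ℚ)).mpr h1
    obtain ⟨p, hp, hp0⟩ := h2
    refine ⟨p, hp, ?_⟩
    apply Subtype.val_injective
    have : ((aeval x p : A) : AlgebraicClosure ℚ) = aeval (x : AlgebraicClosure ℚ) p := by
      have := Polynomial.aeval_algebraMap_apply (AlgebraicClosure ℚ) x p
      exact this.symm
    rw [this, hp0]
    rfl
  intro c hc d hd
  -- step 1: `ℓ ∣ c ^ n₀`
  obtain ⟨n₀, hn₀⟩ : ∃ n₀ : ℕ, ((ℓ : ℕ) : A) ∣ c ^ n₀ := by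
    obtain ⟨p, hp, hp0⟩ := halg c
    -- primitive part
    have hprim : p.primPart.IsPrimitive := p.isPrimitive_primPart
    have hroot : aeval c p.primPart = 0 := by
      have h1 : p = C p.content * p.primPart := p.eq_C_content_mul_primPart
      have h2 : aeval c p = algebraMap ℤ A p.content * aeval c p.primPart := by
        conv_lhs => rw [h1]
        rw [map_mul, aeval_C]
      rw [hp0] at h2
      have hcont : algebraMap ℤ A p.content ≠ 0 := by
        have hc0 : p.content ≠ 0 := Polynomial.content_eq_zero_iff.not.mpr hp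
        intro h
        have h' := congrArg (fun x : A => (x : AlgebraicClosure ℚ)) h
        have h2 : ((p.content : ℤ) : AlgebraicClosure ℚ) = 0 := by simpa using h'
        exact hc0 (by exact_mod_cast h2)
      exact (mul_eq_zero.mp h2.symm).resolve_left hcont
    have hex : ∃ i, ¬ (ℓ : ℤ) ∣ p.primPart.coeff i := by
      by_contra hall
      push Not at hall
      have hC : C (ℓ : ℤ) ∣ p.primPart := (Polynomial.C_dvd_iff_dvd_coeff _ _).mpr hall
      have hu := hprim _ hC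
      exact (Nat.prime_iff_prime_int.mp hℓ).not_isUnit hu
    have hdvd : ((ℓ : ℕ) : A) ∣ c ^ 0 * aeval c p.primPart := by
      rw [hroot, mul_zero]; exact dvd_zero _
    exact exists_dvd_pow_of_dvd_aeval hℓ hℓA hc _ p.primPart 0 le_rfl hex hdvd
  -- step 2: `d ∣ a₀` for a nonzero integer `a₀`
  obtain ⟨p, hp, hp0⟩ := halg d
  obtain ⟨q, hq0, hqroot⟩ := exists_coeff_zero_ne_zero hd _ p le_rfl hp hp0
  have hda : d ∣ ((q.coeff 0 : ℤ) : A) := by
    have hsplit : aeval d q = aeval d q.divX * d + ((q.coeff 0 : ℤ) : A) := by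
      conv_lhs => rw [← Polynomial.divX_mul_X_add q]
      rw [map_add, map_mul, aeval_X, aeval_C]
      simp
    rw [hqroot] at hsplit
    refine ⟨-(aeval d q.divX), ?_⟩
    have : ((q.coeff 0 : ℤ) : A) = -(aeval d q.divX * d) := by
      rw [eq_neg_iff_add_eq_zero, add_comm]; exact hsplit.symm
    rw [this]; ring
  -- `a₀ = ℓ ^ e * u`, `u` prime to `ℓ`
  obtain ⟨e, u, hu, hau⟩ : ∃ (e : ℕ) (u : ℤ), ¬ (ℓ : ℤ) ∣ u ∧ q.coeff 0 = (ℓ : ℤ) ^ e * u := by
    have hfin : FiniteMultiplicity (ℓ : ℤ) (q.coeff 0) :=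
      Int.finiteMultiplicity_iff.mpr ⟨by
        rw [Int.natAbs_natCast]; exact hℓ.one_lt.ne', hq0⟩
    obtain ⟨u, hu1, hu2⟩ := hfin.exists_eq_pow_mul_and_not_dvd
    exact ⟨_, u, hu2, hu1⟩
  have huA : IsUnit ((u : ℤ) : A) := isUnit_intCast_of_not_dvd hℓ hℓA hu
  refine ⟨n₀ * (e + 1), ?_⟩
  intro hdvd
  -- `ℓ ^ (e+1) ∣ c ^ (n₀ (e+1)) ∣ d ∣ ℓ ^ e * u`
  have h1 : ((ℓ : ℕ) : A) ^ (e + 1) ∣ c ^ (n₀ * (e + 1)) := by
    rw [pow_mul]; exact pow_dvd_pow_of_dvd hn₀ _
  have h2 : ((ℓ : ℕ) : A) ^ (e + 1) ∣ ((q.coeff 0 : ℤ) : A) := h1.trans (hdvd.trans hda)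
  have h3 : ((q.coeff 0 : ℤ) : A) = ((ℓ : ℕ) : A) ^ e * ((u : ℤ) : A) := by
    rw [hau]; push_cast; ring
  rw [h3, pow_succ] at h2
  have h4 : ((ℓ : ℕ) : A) ^ e * ((ℓ : ℕ) : A) ∣ ((ℓ : ℕ) : A) ^ e := by
    have := (huA.dvd_mul_right).mp h2
    exact this
  have hpow : ((ℓ : ℕ) : A) ^ e ≠ 0 := pow_ne_zero _ hℓne
  have h5 : ((ℓ : ℕ) : A) ∣ 1 := by
    obtain ⟨t, ht⟩ := h4
    refine ⟨t, ?_⟩
    have : ((ℓ : ℕ) : A) ^ e * 1 = ((ℓ : ℕ) : A) ^ e * (((ℓ : ℕ) : A) * t) := by
      rw [mul_one]; rw [← mul_assoc]; exact ht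
    exact mul_left_cancel₀ hpow this
  exact (IsLocalRing.mem_maximalIdeal _).mp hℓA (isUnit_of_dvd_one h5)

end Fermat.Agent.S18lib
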