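/-
S18lib / Asm / Unpack  (helper5)

Pure plumbing for S18 against the Prelude definitions:

* `eq_zero_of_prime_case` : group theory; the kernel of `φ` contains no prime-to-`ℓ` torsion as soon
  as it contains no element of prime order `s ≠ ℓ`.
* `DivisorCore A N r ℓ`   : the divisor-level core statement for a place reduction `r`.
* `result_of_divisorCore` : the frozen S18 conclusion from `DivisorCore` for the chosen reduction
  `placeReductionModL h`.
-/
import Mathlib
import Fermat.Prelude.Def_ModularCurve_ReductionModL

set_option autoImplicit false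

open AlgebraicCurve ModularCurve

namespace Fermat.Agent.S18lib.Asm

/-- Group theory: if `ker φ` has no element of prime order `s ≠ ℓ`, it has no nonzero element
killed by an integer prime to `ℓ`. -/
theorem eq_zero_of_prime_case {G H : Type*} [AddCommGroup G] [AddCommGroup H] (φ : G →+ H)
    (ℓ : ℕ)
    (hprime : ∀ s : ℕ, s.Prime → s ≠ ℓ → ∀ z : G, s • z = 0 → φ z = 0 → z = 0) :
    ∀ m : ℕ, ¬ ℓ ∣ m → ∀ z : G, m • z = 0 → φ z = 0 → z = 0 := by
  intro m
  induction m using Nat.strong_induction_on with
  | _ m ih =>
    intro hm z hmz hz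
    rcases Nat.eq_zero_or_pos m with rfl | hpos
    · exact absurd (dvd_zero ℓ) hm
    rcases Nat.eq_or_lt_of_le (Nat.succ_le_of_lt hpos) with h1 | h1
    · have : m = 1 := h1.symm
      subst this
      simpa using hmz
    · obtain ⟨s, hs, hsm⟩ := Nat.exists_prime_and_dvd (show m ≠ 1 by omega)
      obtain ⟨m', rfl⟩ := hsm
      have hm'pos : 0 < m' := Nat.pos_of_ne_zero (by rintro rfl; simp at hpos)
      have hlt : m' < s * m' := by
        have := hs.two_le
        nlinarith
      have hℓm' : ¬ ℓ ∣ m' := fun hd => hm (Dvd.dvd.mul_left hd s)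
      have hsℓ : s ≠ ℓ := by
        rintro rfl
        exact hm (Dvd.intro m' rfl)
      have hz' : s • z = 0 := by
        apply ih m' hlt hℓm' (s • z)
        · rw [← mul_smul, mul_comm]; exact hmz
        · rw [map_nsmul, hz, smul_zero]
      exact hprime s hs hsℓ z hz' hz

section Core

variable (A : ValuationSubring (AlgebraicClosure ℚ)) (N : ℕ)

/-- The divisor-level core of S18 for a place reduction `r` : a degree-zero divisor `D` on the
characteristic-zero curve with `s • D` principal (`s` a prime different from `ℓ`) and principal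
reduction is itself principal. -/
def DivisorCore
    (r : Place (AlgebraicClosure ℚ) (modularFunctionFieldBar N) →
      Place (IsLocalRing.ResidueField A) (modularFunctionFieldFullC (IsLocalRing.ResidueField A) N))
    (ℓ : ℕ) : Prop :=
  ∀ s : ℕ, s.Prime → s ≠ ℓ →
    ∀ D : Divisor (AlgebraicClosure ℚ) (modularFunctionFieldBar N),
      Divisor.degree D = 0 →
      s • D ∈ Divisor.principal (K := AlgebraicClosure ℚ) (F := modularFunctionFieldBar N) →
      Finsupp.mapDomain r D ∈ Divisor.principal (K := IsLocalRing.ResidueField A)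
        (F := modularFunctionFieldFullC (IsLocalRing.ResidueField A) N) →
      D ∈ Divisor.principal (K := AlgebraicClosure ℚ) (F := modularFunctionFieldBar N)

variable {A N}

theorem pic0_mk_eq_zero_iff {K F : Type*} [Field K] [Field F] [Algebra K F]
    (D : Divisor.degZero (K := K) (F := F)) :
    Pic0.mk D = 0 ↔ (D : Divisor K F) ∈ Divisor.principal (K := K) (F := F) := by
  unfold Pic0.mk
  rw [QuotientAddGroup.eq_zero_iff, AddSubgroup.mem_addSubgroupOf]

theorem pic0_nsmul_mk {K F : Type*} [Field K] [Field F] [Algebra K F] (s : ℕ)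
    (D : Divisor.degZero (K := K) (F := F)) :
    s • Pic0.mk D = Pic0.mk (s • D) := rfl

/-- The S18 conclusion from the divisor-level core for the chosen reduction. -/
theorem result_of_divisorCore {ℓ : ℕ} (h : ModularCurve.ReductionInputsModL A N)
    (hcore : DivisorCore A N (placeReductionModL h) ℓ)
    (m : ℕ) (hm : ¬ ℓ ∣ m) (z : ModularCurve.JZero N)
    (hmz : m • z = 0) (hz : ModularCurve.reductionModL A N z = 0) :
    z = 0 := by
  refine eq_zero_of_prime_case (reductionModL A N) ℓ ?_ m hm z hmz hz
  intro s hs hsℓ z hsz hz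
  obtain ⟨D, rfl⟩ := Pic0.mk_surjective z
  rw [pic0_mk_eq_zero_iff]
  rw [pic0_nsmul_mk, pic0_mk_eq_zero_iff] at hsz
  rw [reductionModL_mk h, pic0_mk_eq_zero_iff, coe_reductionDegZeroAlong] at hz
  exact hcore s hs hsℓ D (Divisor.mem_degZero.mp D.2) (by simpa using hsz) hz

end Core

end Fermat.Agent.S18lib.Asm
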