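/-
S18lib / Asm / Final  (helper2)

Final assembly of S18 modulo the genus equality:
(V-datum) + (V-frame) + (C) + RankOne + (Asm/Unpack)  ⇒  the frozen S18 conclusion, GIVEN
`∃ g, IsCurveOfGenus Q̄ (FBar N) g ∧ IsCurveOfGenus k (FRes A N) g`  (= `G.exists_genus`).
-/
import Fermat.Agent.S18lib.Cech.Core
import Fermat.Agent.S18lib.V.Frame
import Fermat.Agent.S18lib.Asm.RankOne
import Fermat.Agent.S18lib.Asm.Unpack

set_option autoImplicit false

namespace Fermat.Agent.S18lib.Asm

open AlgebraicCurve ModularCurve Fermat.Agent.S18lib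

/-- `ℓ = 0` in the residue field of a valuation ring over `ℓ` -/
theorem natCast_residueField_eq_zero {ℓ : ℕ} [Fact ℓ.Prime]
    (A : ValuationSubring (AlgebraicClosure ℚ))
    (hA : A.LiesOverPrime ℓ) : (ℓ : IsLocalRing.ResidueField A) = 0 := by
  have h : ((ℓ : ℕ) : AlgebraicClosure ℚ) ∈ A.nonunits := hA
  have hmem : ((ℓ : ℕ) : AlgebraicClosure ℚ) ∈ A := A.nonunits_le h
  have : (⟨((ℓ : ℕ) : AlgebraicClosure ℚ), hmem⟩ : A) ∈ IsLocalRing.maximalIdeal A := by
    rw [IsLocalRing.mem_maximalIdeal, mem_nonunits_iff]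
    intro hu
    exact (ValuationSubring.mem_nonunits_iff_exists_mem_maximalIdeal.mp h).elim fun hm hm' => by
      have := (IsLocalRing.mem_maximalIdeal _).mp hm'
      exact this hu
  have h0 := (IsLocalRing.residue_eq_zero_iff _).mpr this
  rw [← h0]
  have : (⟨((ℓ : ℕ) : AlgebraicClosure ℚ), hmem⟩ : A) = ((ℓ : ℕ) : A) := by
    ext; simp
  rw [this, map_natCast]

/-- a prime `s ≠ ℓ` is invertible in the residue field -/
theorem natCast_residueField_ne_zero {ℓ : ℕ} [Fact ℓ.Prime]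
    (A : ValuationSubring (AlgebraicClosure ℚ)) (hA : A.LiesOverPrime ℓ)
    {s : ℕ} (hs : s.Prime) (hsℓ : s ≠ ℓ) : (s : IsLocalRing.ResidueField A) ≠ 0 := by
  intro h0
  have hℓ0 := natCast_residueField_eq_zero A hA
  have hcop : Nat.Coprime s ℓ := (Nat.coprime_primes hs (Fact.out)).mpr hsℓ
  have h1 : ((1 : ℤ) : IsLocalRing.ResidueField A) = 0 := by
    have hb := Nat.gcd_eq_gcd_ab s ℓ
    rw [hcop.gcd_eq_one] at hb
    have := congrArg (fun z : ℤ => (z : IsLocalRing.ResidueField A)) hb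
    simp only [Int.cast_add, Int.cast_mul, Int.cast_natCast, Nat.cast_one] at this
    rw [h0, hℓ0, zero_mul, zero_mul, add_zero] at this
    simp at this
  simp at h1

/-- the divisor-level core of S18 from the genus equality -/
theorem divisorCore_of_exists_genus (N : ℕ) [NeZero N] {ℓ : ℕ} [Fact ℓ.Prime] (hℓN : ¬ ℓ ∣ N)
    (A : ValuationSubring (AlgebraicClosure ℚ)) (hA : A.LiesOverPrime ℓ)
    (h : ReductionInputsModL A N)
    (hG : ∃ g : ℕ, IsCurveOfGenus (AlgebraicClosure ℚ) (FBar N) g ∧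
      IsCurveOfGenus (IsLocalRing.ResidueField A) (FRes A N) g) :
    DivisorCore A N (placeReductionModL h) ℓ := by
  intro s hs hsℓ D hdeg hsD hrD
  obtain ⟨g, hF, hFk⟩ := hG
  have hsk := natCast_residueField_ne_zero A hA hs hsℓ
  have := Cech.mem_principal_of_smul_mem_principal (V.datum N A hℓN hA h)
    (V.datum_hasOrthonormalBases N A hℓN hA h) (rankOne_of_liesOverPrime A hA) hF hFk s hsk D hdeg hsD
  rw [V.datum_r] at this
  exact this hrD

/-- **S18 from the genus equality** (the frozen statement with the extra hypothesis `hG`) -/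
theorem result_of_exists_genus (N : ℕ) [NeZero N] {ℓ : ℕ}
    [Fact ℓ.Prime] (hℓN : ¬ ℓ ∣ N) (A : ValuationSubring (AlgebraicClosure ℚ))
    (hA : A.LiesOverPrime ℓ)
    (h : ModularCurve.ReductionInputsModL A N)
    (hG : ∃ g : ℕ, IsCurveOfGenus (AlgebraicClosure ℚ) (FBar N) g ∧
      IsCurveOfGenus (IsLocalRing.ResidueField A) (FRes A N) g)
    (m : ℕ) (hm : ¬ ℓ ∣ m) (z : ModularCurve.JZero N)
    (hmz : m • z = 0) (hz : ModularCurve.reductionModL A N z = 0) :
    z = 0 :=
  result_of_divisorCore h (divisorCore_of_exists_genus N hℓN A hA h hG) m hm z hmz hz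

end Fermat.Agent.S18lib.Asm
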